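/-
S16, UPPER, package U-T / REL-I (backup copy, helper96), part 2: the relation (I).

If `f` is a weight-2 cusp form on `Γ₀(p)` with integral `q`-coefficients `a k` (`k ≥ 1`) such that
`a k ≡ σ'(k) mod m` (`σ'(k)` = sum of the divisors of `k` prime to `p`), then
`24 * m ∣ (p² - 1) * a 1`.

Proof: apply the vanishing trace relation (`trace4_coeff`) to `G₁ = E' - f`, `G₂ = f`
(`E'` = helper91's Eisenstein series `eisP p`) at `n = 1`.
-/
import Fermat.Agent.S16.H96.Trace4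
import Fermat.Agent.S16.H91.EisQ

set_option autoImplicit false

noncomputable section

open UpperHalfPlane ModularForm CongruenceSubgroup Matrix.SpecialLinearGroup
open scoped MatrixGroups ModularForm Manifold

namespace Fermat.Agent.S16.H96

open Fermat.Agent.S28.H22 Fermat.Agent.S22 Fermat.Agent.S16.H20 Fermat.Agent.S16.H91

/-- **Formal core of (I).**  `g`, `φ` are the coefficient sequences of `E' - f` and `f`;
`hT` is the trace relation at `n = 1`, `hW` is `a_{p²}(f) = a_1(f)`. -/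
theorem core_I (p : ℕ) (m : ℤ) (a s : ℕ → ℤ) (g φ : ℕ → ℂ) (c : ℂ)
    (hg0 : g 0 = c) (hg : ∀ k, 0 < k → g k = (s k : ℂ) - (a k : ℂ))
    (hφ0 : φ 0 = 0) (hφ : ∀ k, 0 < k → φ k = (a k : ℂ))
    (hc : ∀ k, 0 < k → m ∣ a k - s k)
    (hW : φ (p * p) = φ 1)
    (hT : (p : ℂ) * (∑ x ∈ Finset.HasAntidiagonal.antidiagonal 1, g x.1 * φ x.2) +
      ∑ x ∈ Finset.HasAntidiagonal.antidiagonal p, g (x.1 * p) * φ (x.2 * p) = 0) :
    ∃ K : ℤ, ((p : ℂ) + 1) * c * (a 1 : ℂ) = (m : ℂ) * (K : ℂ) := by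
  -- the first sum
  have h1 : ∑ x ∈ Finset.HasAntidiagonal.antidiagonal 1, g x.1 * φ x.2 = c * (a 1 : ℂ) := by
    rw [Finset.Nat.sum_antidiagonal_eq_sum_range_succ (fun i j => g i * φ j) 1]
    simp [Finset.sum_range_succ, hg0, hφ0, hφ 1 one_pos]
  -- the second sum
  have h2 : ∃ K : ℤ, ∑ x ∈ Finset.HasAntidiagonal.antidiagonal p, g (x.1 * p) * φ (x.2 * p) =
      c * (a 1 : ℂ) + (m : ℂ) * (K : ℂ) := by
    rw [Finset.Nat.sum_antidiagonal_eq_sum_range_succ (fun i j => g (i * p) * φ (j * p)) p,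
      Finset.sum_range_succ']
    have h00 : g (0 * p) * φ ((p - 0) * p) = c * (a 1 : ℂ) := by
      rw [zero_mul, Nat.sub_zero, hg0, hW, hφ 1 one_pos]
    have hrest : ∃ K : ℤ, ∑ k ∈ Finset.range p, g ((k + 1) * p) * φ ((p - (k + 1)) * p) =
        (m : ℂ) * (K : ℂ) := by
      apply Finset.sum_induction _ (fun x : ℂ => ∃ K : ℤ, x = (m : ℂ) * (K : ℂ))
      · rintro x y ⟨K1, rfl⟩ ⟨K2, rfl⟩
        exact ⟨K1 + K2, by push_cast; ring⟩
      · exact ⟨0, by simp⟩
      · intro k hk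
        have hkp : k < p := Finset.mem_range.mp hk
        have hpos : 0 < (k + 1) * p := Nat.mul_pos (Nat.succ_pos k) (by omega)
        obtain ⟨z, hz⟩ := hc _ hpos
        have hgk : g ((k + 1) * p) = -((m : ℂ) * (z : ℂ)) := by
          rw [hg _ hpos]
          have : ((a ((k + 1) * p) - s ((k + 1) * p) : ℤ) : ℂ) = ((m * z : ℤ) : ℂ) := by
            rw [hz]
          push_cast at this
          linear_combination -this
        rcases Nat.eq_zero_or_pos ((p - (k + 1)) * p) with h0 | h0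
        · refine ⟨0, ?_⟩
          rw [h0, hφ0]
          simp
        · refine ⟨-(z * a ((p - (k + 1)) * p)), ?_⟩
          rw [hgk, hφ _ h0]
          push_cast
          ring
    obtain ⟨K, hK⟩ := hrest
    exact ⟨K, by rw [hK, h00]; ring⟩
  obtain ⟨K, hK⟩ := h2
  rw [h1, hK] at hT
  refine ⟨-K, ?_⟩
  push_cast
  linear_combination hT

/-- **REL-I** (shape of helper63's UPPER plan): if the weight-2 cusp form `f` on `Γ₀(p)` has
integral coefficients `a k` (`k ≥ 1`) congruent to `σ'(k)` modulo `m`, then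
`24 * m ∣ (p² - 1) * a 1`.  Valid for every prime `p`. -/
theorem rel_I (p : ℕ) [hpp : Fact p.Prime] (m : ℤ) (f : CuspForm (Gamma0 p) 2) (a : ℕ → ℤ)
    (ha : ∀ k, 0 < k → ModularFormClass.qCoeff f k = (a k : ℂ))
    (hc : ∀ k, 0 < k → m ∣ a k - ∑ d ∈ k.divisors.filter (fun d => ¬ p ∣ d), (d : ℤ)) :
    24 * m ∣ ((p : ℤ) ^ 2 - 1) * a 1 := by
  have hp : p ≠ 0 := hpp.out.ne_zero
  have : NeZero p := ⟨hp⟩
  set F : ModularForm (Gamma0 p) 2 := ModularFormClass.modularForm f with hF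
  have hFf : (F : ℍ → ℂ) = f := rfl
  set E : ModularForm (Gamma0 p) 2 := eisP p with hE
  have hφ0 : (qExpansion 1 F).coeff 0 = 0 := by
    rw [hFf]
    exact CuspFormClass.qExpansion_coeff_zero f one_pos (one_mem_strictPeriods p)
  have hφ : ∀ k, 0 < k → (qExpansion 1 F).coeff k = (a k : ℂ) := fun k hk => ha k hk
  set G1 : ModularForm (Gamma0 p) 2 := E - F with hG1
  have hG1f : (G1 : ℍ → ℂ) = (E : ℍ → ℂ) - (F : ℍ → ℂ) := rfl
  have hsub : qExpansion 1 (G1 : ℍ → ℂ) = qExpansion 1 E - qExpansion 1 F := by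
    rw [hG1f]
    exact qExp_sub (isNice_coe 1 E) (isNice_coe 1 F)
  have hg0 : (qExpansion 1 G1).coeff 0 = ((p : ℂ) - 1) / 24 := by
    rw [hsub, map_sub, hφ0, sub_zero]
    exact qExpansion_eisP_coeff_zero p
  have hg : ∀ k, 0 < k →
      (qExpansion 1 G1).coeff k = (((sigmaP p k : ℕ) : ℤ) : ℂ) - (a k : ℂ) := by
    intro k hk
    rw [hsub, map_sub, hφ k hk, hE, qExpansion_eisP_coeff_of_ne_zero p hk.ne']
    push_cast
    rfl
  have hc' : ∀ k, 0 < k → m ∣ a k - ((sigmaP p k : ℕ) : ℤ) := by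
    intro k hk
    rw [sigmaP_cast_int]
    exact hc k hk
  have hW : (qExpansion 1 F).coeff (p * p) = (qExpansion 1 F).coeff 1 := by
    have := qCoeff_mul_mul_eq F 1
    rwa [one_mul] at this
  have hT := trace4_coeff G1 F (by rw [hφ0, mul_zero]) 1
  rw [PowerSeries.coeff_mul, PowerSeries.coeff_mul, one_mul] at hT
  have hT' : (p : ℂ) * (∑ x ∈ Finset.HasAntidiagonal.antidiagonal 1,
        (qExpansion 1 G1).coeff x.1 * (qExpansion 1 F).coeff x.2) +
      ∑ x ∈ Finset.HasAntidiagonal.antidiagonal p,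
        (qExpansion 1 G1).coeff (x.1 * p) * (qExpansion 1 F).coeff (x.2 * p) = 0 := by
    rw [← hT]
    congr 1
    refine Finset.sum_congr rfl fun x _ => ?_
    rw [qCoeff_heckeU_of_isNice 2 hp (isNice_coe 1 G1),
      qCoeff_heckeU_of_isNice 2 hp (isNice_coe 1 F)]
  obtain ⟨K, hK⟩ := core_I p m a (fun k => ((sigmaP p k : ℕ) : ℤ))
    (fun k => (qExpansion 1 G1).coeff k) (fun k => (qExpansion 1 F).coeff k)
    (((p : ℂ) - 1) / 24) hg0 hg hφ0 hφ hc' hW hT'
  refine ⟨K, ?_⟩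
  have h : ((((p : ℤ) ^ 2 - 1) * a 1 : ℤ) : ℂ) = ((24 * m * K : ℤ) : ℂ) := by
    push_cast
    linear_combination 24 * hK
  exact_mod_cast h

end Fermat.Agent.S16.H96
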