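/-
S16, UPPER, package U-T / REL-I (backup copy, helper96), part 1: the trace to level one of a
product of two weight-2 forms on `Γ₀(p)`.

For `G₁ G₂ : ModularForm Γ₀(p) 2` (p prime) the trace of `G₁ G₂` to level one is, as a function,
`G₁ G₂ + p⁻¹ • U_p ((U_p G₁) (U_p G₂))` (helper20's weight-2 Atkin–Lehner relation
`G ∣ S T^b = -(U_p G) ∣ [[1,b],[0,p]]`).  It is a level-one form of weight `4`; if its constant
term vanishes it is zero, which gives the coefficient relation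

  `p * a_n(G₁ G₂) + a_{np}((U_p G₁)(U_p G₂)) = 0`.
-/
import Fermat.Agent.S16.H20.W2

set_option autoImplicit false

noncomputable section

open UpperHalfPlane ModularForm CongruenceSubgroup Matrix.SpecialLinearGroup
open scoped MatrixGroups ModularForm Manifold Pointwise

namespace Fermat.Agent.S16.H96

open Fermat.Agent.S28.H22 Fermat.Agent.S22 Fermat.Agent.S16.H20

/-- `Γ₀(p)` as a subgroup of `GL(2, ℝ)`. -/
local notation "𝒢(" p ")" => (Subgroup.map (mapGL ℝ) (Gamma0 p))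

/-! ### `q`-expansions (period one) of nice functions -/

theorem qExp_add {F G : ℍ → ℂ} (hF : IsNice 1 F) (hG : IsNice 1 G) :
    qExpansion 1 (F + G) = qExpansion 1 F + qExpansion 1 G := by
  have := map_add (qExpHom 1) ⟨F, hF⟩ ⟨G, hG⟩
  simpa using this

theorem qExp_mul {F G : ℍ → ℂ} (hF : IsNice 1 F) (hG : IsNice 1 G) :
    qExpansion 1 (F * G) = qExpansion 1 F * qExpansion 1 G := by
  have := map_mul (qExpHom 1) ⟨F, hF⟩ ⟨G, hG⟩
  simpa using this

theorem qExp_smul (c : ℂ) {F : ℍ → ℂ} (hF : IsNice 1 F) :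
    qExpansion 1 (c • F) = c • qExpansion 1 F := by
  have h := qExpansion_smul (IsNice.analyticAt hF) c
  rw [Nat.cast_one] at h
  exact h

theorem qExp_sub {F G : ℍ → ℂ} (hF : IsNice 1 F) (hG : IsNice 1 G) :
    qExpansion 1 (F - G) = qExpansion 1 F - qExpansion 1 G := by
  have h := qExpansion_sub (IsNice.analyticAt hF) (IsNice.analyticAt hG)
  rw [Nat.cast_one] at h
  exact h

variable {p : ℕ} [hpp : Fact p.Prime]

/-- The trace to level one of the product of two weight-2 forms on `Γ₀(p)`, as a function. -/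
theorem coe_trace_mul (G1 G2 : ModularForm 𝒢(p) 2) :
    (⇑(ModularForm.trace 𝒮ℒ (G1.mul G2)) : ℍ → ℂ) =
      (G1 : ℍ → ℂ) * G2 +
        (p : ℂ)⁻¹ • heckeU (2 + 2) p (heckeU 2 p G1 * heckeU 2 p G2) := by
  have hp : p ≠ 0 := hpp.out.ne_zero
  have hp' : (p : ℂ) ≠ 0 := by exact_mod_cast hp
  rw [ModularForm.coe_trace]
  let _ : Fintype (𝒮ℒ ⧸ Subgroup.subgroupOf 𝒢(p) 𝒮ℒ) := Fintype.ofFinite _
  rw [sum_quotient_eq p]
  simp only [quotientFunc_cosetOf, map_one, SlashAction.slash_one]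
  rw [ModularForm.coe_mul]
  congr 1
  rw [heckeU_def, Finset.smul_sum, ← Fin.sum_univ_eq_sum_range
    (fun j => (p : ℂ)⁻¹ • ((heckeU 2 p G1 * heckeU 2 p G2) ∣[(2 + 2 : ℤ)] heckeMatrix p j))]
  refine Finset.sum_congr rfl fun b _ => ?_
  have h1 := slash_sigma_eq G1 (b : ℕ)
  have h2 := slash_sigma_eq G2 (b : ℕ)
  have h3 : ((G1 : ℍ → ℂ) * G2) ∣[(2 + 2 : ℤ)] mapGL ℝ (sigma ((b : ℕ) : ℤ)) =
      ((G1 : ℍ → ℂ) ∣[(2 : ℤ)] mapGL ℝ (sigma ((b : ℕ) : ℤ))) *
        ((G2 : ℍ → ℂ) ∣[(2 : ℤ)] mapGL ℝ (sigma ((b : ℕ) : ℤ))) :=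
    mul_slash_SL2 2 2 (sigma ((b : ℕ) : ℤ)) G1 G2
  rw [h3, h1, h2, neg_mul_neg, ModularForm.mul_slash, det_heckeMatrix hp]
  ext τ
  simp only [Pi.smul_apply, Pi.mul_apply, Complex.real_smul, smul_eq_mul, Nat.abs_cast,
    Complex.ofReal_natCast]
  field_simp

/-- The `q`-expansion of the trace of `G₁ G₂`. -/
theorem qExpansion_trace_mul_coeff (G1 G2 : ModularForm 𝒢(p) 2) (n : ℕ) :
    (qExpansion 1 (ModularForm.trace 𝒮ℒ (G1.mul G2))).coeff n =
      (qExpansion 1 G1 * qExpansion 1 G2).coeff n +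
        (p : ℂ)⁻¹ *
          (qExpansion 1 (heckeU 2 p G1) * qExpansion 1 (heckeU 2 p G2)).coeff (n * p) := by
  have hp : p ≠ 0 := hpp.out.ne_zero
  have h1 := isNice_coe 1 G1
  have h2 := isNice_coe 1 G2
  have hu1 := isNice_heckeU 1 G1
  have hu2 := isNice_heckeU 1 G2
  have hU := isNice_heckeU_of_isNice 1 (2 + 2) p (hu1.mul hu2)
  rw [coe_trace_mul, qExp_add (h1.mul h2) (hU.smul _), qExp_smul _ hU, qExp_mul h1 h2, map_add,
    PowerSeries.coeff_smul, qCoeff_heckeU_of_isNice (2 + 2) hp (hu1.mul hu2) n, qExp_mul hu1 hu2,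
    smul_eq_mul]

/-- The constant term of the trace of `G₁ G₂` is `(1 + p⁻¹) a₀(G₁) a₀(G₂)`. -/
theorem qExpansion_trace_mul_coeff_zero (G1 G2 : ModularForm 𝒢(p) 2) :
    (qExpansion 1 (ModularForm.trace 𝒮ℒ (G1.mul G2))).coeff 0 =
      (1 + (p : ℂ)⁻¹) * ((qExpansion 1 G1).coeff 0 * (qExpansion 1 G2).coeff 0) := by
  have hp : p ≠ 0 := hpp.out.ne_zero
  have e1 := qCoeff_heckeU_of_isNice 2 hp (isNice_coe 1 G1) 0
  have e2 := qCoeff_heckeU_of_isNice 2 hp (isNice_coe 1 G2) 0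
  rw [zero_mul] at e1 e2
  rw [qExpansion_trace_mul_coeff, zero_mul]
  simp only [PowerSeries.coeff_zero_eq_constantCoeff, map_mul] at e1 e2 ⊢
  rw [e1, e2]
  ring

/-- **(T0), vanishing case.**  If `a₀(G₁) a₀(G₂) = 0` (e.g. one of the two forms is a cusp form),
then `p * a_n(G₁ G₂) + a_{np}((U_p G₁)(U_p G₂)) = 0` for all `n`. -/
theorem trace4_coeff (G1 G2 : ModularForm 𝒢(p) 2)
    (h0 : (qExpansion 1 G1).coeff 0 * (qExpansion 1 G2).coeff 0 = 0) (n : ℕ) :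
    (p : ℂ) * (qExpansion 1 G1 * qExpansion 1 G2).coeff n +
      (qExpansion 1 (heckeU 2 p G1) * qExpansion 1 (heckeU 2 p G2)).coeff (n * p) = 0 := by
  have hp : p ≠ 0 := hpp.out.ne_zero
  have hp' : (p : ℂ) ≠ 0 := by exact_mod_cast hp
  have hc0 : (qExpansion 1 (ModularForm.trace 𝒮ℒ (G1.mul G2))).coeff 0 = 0 := by
    rw [qExpansion_trace_mul_coeff_zero, h0, mul_zero]
  have hT0 : ModularForm.trace 𝒮ℒ (G1.mul G2) = 0 := by
    apply sturm_bound_levelOne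
    have h12 : ((2 + 2 : ℤ).toNat / 12 : ℕ) = 0 := by norm_num
    rw [h12, Nat.cast_zero, pos_iff_ne_zero, PowerSeries.order_ne_zero_iff_constCoeff_eq_zero,
      ← PowerSeries.coeff_zero_eq_constantCoeff]
    exact hc0
  have h := qExpansion_trace_mul_coeff G1 G2 n
  rw [hT0, FunLike.coe_zero, qExpansion_zero, map_zero] at h
  have h' := congrArg (fun x => (p : ℂ) * x) h
  simp only [mul_zero, mul_add] at h'
  rw [← mul_assoc, mul_inv_cancel₀ hp', one_mul] at h'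
  exact h'.symm

end Fermat.Agent.S16.H96
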